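import Mathlib.FieldTheory.Finite.Extension
import Fermat.Agent.TW.Ad
import Fermat.Agent.TW.Tame

/-!
# A decomposition group is generated by a Frobenius element and inertia modulo every level

Modulo every open level each element of a decomposition group is a power of Frobenius times an
element of inertia. Used to compute unramified local classes.
-/

noncomputable section

namespace Fermat.Agent.TW

open Fermat.Agent.PT NumberField

variable {q : ℕ} {A : ValuationSubring (AlgebraicClosure ℚ)}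

local notation "Qb" => AlgebraicClosure ℚ

/-- Modulo a level, the decomposition group is generated by a Frobenius element and inertia. -/
theorem exists_frob_pow_mul (hq : q.Prime) (hA : A.LiesOverPrime q) {φ : AG}
    (hφ : A.IsFrobeniusAt φ q) {U : Subgroup AG} (hU : U ∈ lvQ) {σ : AG}
    (hσ : σ ∈ A.decompositionSubgroup ℚ) :
    ∃ (i : ℕ) (ι : AG), ι ∈ A.inertiaSubgroupIn ℚ ∧ (φ ^ i * ι)⁻¹ * σ ∈ U := by
  classical
  obtain ⟨E, hE, hEU⟩ := hU
  let F := IntermediateField.normalClosure ℚ E Qb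
  have hEF : E ≤ F := IntermediateField.le_normalClosure E
  have : FiniteDimensional ℚ F := normalClosure.is_finiteDimensional ℚ E Qb
  have : Normal ℚ F := normalClosure.normal ℚ E Qb
  have : NumberField F := @NumberField.mk _ _ inferInstance ‹_›
  have : Fact q.Prime := ⟨hq⟩
  set P := Gal.placePrime A F
  have hqP : (q : 𝓞 F) ∈ P := natCast_mem_placePrime hA F
  have hP0 : P ≠ ⊥ := placePrime_ne_bot hq hA F
  have : P.IsMaximal := (Gal.placePrime_isPrime A F).isMaximal hP0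
  let _ : Field (𝓞 F ⧸ P) := Ideal.Quotient.field P
  have : Finite (𝓞 F ⧸ P) := Ideal.finiteQuotientOfFreeOfNeBot P hP0
  let _ : Fintype (𝓞 F ⧸ P) := Fintype.ofFinite _
  have : CharP (𝓞 F ⧸ P) q := by
    refine (CharP.charP_iff_prime_eq_zero hq).2 ?_
    rw [← map_natCast (Ideal.Quotient.mk P), Ideal.Quotient.eq_zero_iff_mem]
    exact hqP
  let _ : Algebra (ZMod q) (𝓞 F ⧸ P) := ZMod.algebra _ q
  have hker : ∀ x ∈ P, (Ideal.Quotient.mk P).comp (actInt F σ) x = 0 := fun x hx => by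
    rw [RingHom.comp_apply, Ideal.Quotient.eq_zero_iff_mem, Gal.mem_placePrime, coe_actInt]
    exact (Gal.decomposition_mem_nonunits_iff hσ).2 (Gal.mem_placePrime.1 hx)
  let e : (𝓞 F ⧸ P) →ₐ[ZMod q] (𝓞 F ⧸ P) :=
    { toRingHom := Ideal.Quotient.lift P ((Ideal.Quotient.mk P).comp (actInt F σ)) hker
      commutes' := fun r => DFunLike.congr_fun (Subsingleton.elim
        ((Ideal.Quotient.lift P ((Ideal.Quotient.mk P).comp (actInt F σ)) hker).comp
          (algebraMap (ZMod q) _)) (algebraMap (ZMod q) _)) r }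
  obtain ⟨i, hi⟩ := (FiniteField.bijective_frobeniusAlgHom_pow (ZMod q) (𝓞 F ⧸ P)).2 e
  have hpow : ∀ (j : ℕ) y, (FiniteField.frobeniusAlgHom (ZMod q) (𝓞 F ⧸ P) ^ j) y = y ^ q ^ j := by
    intro j y
    simp [AlgHom.coe_pow, FiniteField.coe_frobeniusAlgHom, pow_iterate]
  obtain ⟨hφD, -⟩ := Gal.isFrobeniusAt_iff.1 hφ
  have hcongr : ∀ x ∈ F, IsIntegral ℤ x → ((φ ^ (i : ℕ))⁻¹ * σ) x - x ∈ A.nonunits := by
    intro x hxF hx
    let xF : 𝓞 F := ⟨⟨x, hxF⟩,
      (isIntegral_algHom_iff F.val.toRingHom.toIntAlgHom F.val.injective).1 hx⟩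
    have h1 : σ x - x ^ q ^ (i : ℕ) ∈ A.nonunits := by
      have h := DFunLike.congr_fun hi (Ideal.Quotient.mk P xF)
      rw [hpow, ← map_pow] at h
      have h' : ((((actInt F σ xF - xF ^ q ^ (i : ℕ) : 𝓞 F)) : F) : Qb) ∈ A.nonunits :=
        Gal.mem_placePrime.1 (Ideal.Quotient.eq.1 h.symm)
      have e2 : (((xF ^ q ^ (i : ℕ) : 𝓞 F) : F) : Qb) = x ^ q ^ (i : ℕ) := rfl
      have e3 : (((actInt F σ xF : 𝓞 F) : F) : Qb) - (((xF ^ q ^ (i : ℕ) : 𝓞 F) : F) : Qb) ∈
          A.nonunits := h'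
      rwa [coe_actInt, e2] at e3
    have h2 : ∀ j : ℕ, (φ ^ j) x - x ^ q ^ j ∈ A.nonunits :=
      Gal.frobenius_pow_sub_mem_nonunits hφ (Gal.mem_of_isIntegral hx)
    rw [← Gal.decomposition_mem_nonunits_iff (pow_mem hφD (i : ℕ)), map_sub, AlgEquiv.mul_apply,
      AlgEquiv.aut_inv, AlgEquiv.apply_symm_apply]
    have := sub_mem h1 (h2 i)
    rwa [sub_sub_sub_cancel_right] at this
  obtain ⟨ι, hι, hιF⟩ := Gal.exists_mem_inertia_eqOn hq hA F _ hcongr
  refine ⟨i, ι, hι, hEU ((IntermediateField.mem_fixingSubgroup_iff _ _).2 fun x hx => ?_)⟩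
  rw [mul_inv_rev, mul_assoc, AlgEquiv.mul_apply, ← hιF x (hEF hx)]
  exact ι.symm_apply_apply x

end Fermat.Agent.TW
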