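import Mathlib.Algebra.CharP.Two
import Mathlib.Algebra.Module.LinearMap.End
import Fermat.Agent.TW.Ad
import Fermat.Agent.TW.Minimal
import Fermat.Agent.TW.Tame

/-!
# Cocycles on tame inertia

Where inertia at `q` acts trivially, conjugation by Frobenius multiplies the values of a cocycle
on inertia by `q`. Used at auxiliary primes and at minimal primes.
-/

noncomputable section

namespace Fermat.Agent.TW

open Fermat.Agent.PT Fermat.Agent.PT.Lv

variable {k : Type*} [Field k] {M : Type*} [AddCommGroup M] [Module k M]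
  (ρ : Representation k AG M)

/-- The affine action attached to a cocycle. -/
def affHom {c : AG → M} (hc : ∀ g h, c (g * h) = ρ g (c h) + c g) :
    AG →* Module.End k (M × k) where
  toFun g :=
    { toFun := fun x => (ρ g x.1 + x.2 • c g, x.2)
      map_add' := fun x y => by simp [add_smul]; abel
      map_smul' := fun a x => by simp [smul_smul, smul_add] }
  map_one' := by
    have h1 : c 1 = 0 := by
      have h := hc 1 1
      rwa [mul_one, map_one, Module.End.one_apply, right_eq_add] at h
    exact LinearMap.ext fun x => by simp [h1]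
  map_mul' g h := LinearMap.ext fun x => by
    simp only [LinearMap.coe_mk, AddHom.coe_mk, Module.End.mul_apply, Prod.mk.injEq, and_true,
      map_mul, hc, map_add, map_smul, smul_add]
    abel

theorem affHom_apply {c : AG → M} (hc : ∀ g h, c (g * h) = ρ g (c h) + c g) (g : AG) (x : M × k) :
    affHom ρ hc g x = (ρ g x.1 + x.2 • c g, x.2) := rfl

/-- On inertia acting trivially, conjugation by Frobenius multiplies a cocycle by the residue
cardinality. -/
theorem cocycle_frob_conj {p : ℕ} (hp : p.Prime) [CharP k p] {q : ℕ} (hq : q.Prime) (hpq : p ≠ q)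
    {A : ValuationSubring (AlgebraicClosure ℚ)} (hA : A.LiesOverPrime q)
    {U : Subgroup AG} (hU : U ∈ lvQ) (hρU : ∀ s ∈ U, ρ s = 1)
    {c : AG → M} (hc : c ∈ Z1 lvQ ρ) (hI : ∀ s ∈ A.inertiaSubgroupIn ℚ, ρ s = 1)
    {φ : AG} (hφ : A.IsFrobeniusAt φ q) {s : AG} (hs : s ∈ A.inertiaSubgroupIn ℚ) :
    c (φ * s * φ⁻¹) = q • c s := by
  obtain ⟨⟨V, hV, hVc⟩, hcm⟩ := mem_Z1.1 hc
  obtain ⟨L, hL, hLUV⟩ := exists_field_fixing (lvQ.inf_mem hU hV)
  let π : AG →* (Module.End k (M × k))ˣ := (affHom ρ hcm).toHomUnits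
  have hπ1 : ∀ g, π g = 1 ↔ ρ g = 1 ∧ c g = 0 := fun g => by
    constructor
    · intro h
      have h' : affHom ρ hcm g = 1 := congrArg Units.val h
      have h2 := LinearMap.congr_fun h' ((0 : M), (1 : k))
      simp [affHom_apply] at h2
      refine ⟨LinearMap.ext fun m => ?_, h2⟩
      have h3 := LinearMap.congr_fun h' (m, (0 : k))
      simpa [affHom_apply] using h3
    · rintro ⟨h1, h2⟩
      exact Units.ext (LinearMap.ext fun x => by simp [π, affHom_apply, h1, h2])
  have hIpow : ∀ g ∈ A.inertiaSubgroupIn ℚ, ∀ j : ℕ, c (g ^ j) = j • c g := by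
    intro g hg j
    induction j with
    | zero => rw [pow_zero, zero_smul]; exact Z1_apply_one hc
    | succ j ih =>
      rw [pow_succ', hcm, ih, hI g hg, Module.End.one_apply, add_smul, one_smul]
  have key := (exists_inertia_generator_frobenius hq hp hpq hA π L
    (fun σ hσ => by
      obtain ⟨h1, h2⟩ := hLUV σ hσ
      refine (hπ1 σ).2 ⟨hρU σ h1, ?_⟩
      have := hVc 1 σ h2
      rwa [one_mul, Z1_apply_one hc] at this)
    (fun σ hσ => ⟨1, by
      rw [pow_one, ← map_pow]
      refine (hπ1 _).2 ⟨by rw [map_pow, hI σ hσ, one_pow], ?_⟩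
      rw [hIpow σ hσ, ← Nat.cast_smul_eq_nsmul k, CharP.cast_eq_zero, zero_smul]⟩)).1 φ hφ s hs
  rw [← map_pow] at key
  have h1 : affHom ρ hcm (φ * s * φ⁻¹) ((0 : M), (1 : k)) = affHom ρ hcm (s ^ q) (0, 1) :=
    LinearMap.congr_fun (congrArg Units.val key) ((0 : M), (1 : k))
  simp only [affHom_apply, map_zero, zero_add, one_smul, Prod.mk.injEq, and_true] at h1
  rw [h1, hIpow s hs]

end Fermat.Agent.TW
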