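import Mathlib.LinearAlgebra.FiniteDimensional.Lemmas
import Fermat.Agent.TW.Local.Generate
import Fermat.Agent.TW.Local.TameCocycle
import Fermat.Agent.TW.Selection

/-!
# Cocycles at a prime congruent to one with a semisimple Frobenius

At such a prime a cocycle of the adjoint is cohomologous to a homomorphism into the line fixed by
Frobenius, spanned by the trace zero part of its image. Used for the local pairing at auxiliary
primes.
-/

noncomputable section

namespace Fermat.Agent.TW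

open Fermat.Agent.PT Fermat.Agent.PT.Lv Matrix Module

open scoped Pointwise

section Generic

variable {k : Type*} [Field k] {M : Type*} [AddCommGroup M] [Module k M] [FiniteDimensional k M]
  (ρ : Representation k AG M) {p : ℕ} {q : ℕ} {A : ValuationSubring (AlgebraicClosure ℚ)} {φ : AG}

/-- On the decomposition group at a prime `q ≡ 1` where inertia acts trivially and the fixed vectors
of Frobenius form a line complementary to the image of `φ - 1`, a cocycle is cohomologous to a
homomorphism into this line. -/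
theorem exists_hom_good [CharP k p] (hp : p.Prime) (hq : q.Prime) (hpq : p ≠ q) (hq1 : p ∣ q - 1)
    (hA : A.LiesOverPrime q) (hφ : A.IsFrobeniusAt φ q) {U : Subgroup AG} (hU : U ∈ lvQ)
    (hρU : ∀ s ∈ U, ρ s = 1) (hI : ∀ s ∈ A.inertiaSubgroupIn ℚ, ρ s = 1)
    {e : M} (hker : ∀ v, ρ φ v = v → v ∈ k ∙ e) (hfix : ρ φ e = e)
    (he : e ∉ LinearMap.range (ρ φ - 1)) {c : AG → M} (hc : c ∈ Z1 lvQ ρ) :
    ∃ h : A.decompositionSubgroup ℚ → k, Con1 (lvD (A.decompositionSubgroup ℚ)) h ∧
      (∀ a b, h (a * b) = h a + h b) ∧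
      ∃ m : M, ∀ σ : A.decompositionSubgroup ℚ, c σ = h σ • e + (ρ σ m - m) := by
  classical
  obtain ⟨⟨V, hV, hVc⟩, hcm⟩ := mem_Z1.1 hc
  have he0 : e ≠ 0 := fun h => he (h ▸ zero_mem _)
  -- the line complements the image of `φ - 1`
  have hsum : LinearMap.range (ρ φ - 1) ⊔ k ∙ e = ⊤ := by
    refine Submodule.eq_top_of_finrank_eq ?_
    have h1 := LinearMap.finrank_range_add_finrank_ker (ρ φ - 1)
    have h2 : finrank k (LinearMap.ker (ρ φ - 1)) ≤ finrank k (k ∙ e) :=
      Submodule.finrank_mono fun v hv => hker v (sub_eq_zero.1 (LinearMap.mem_ker.1 hv))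
    have h3 := Submodule.finrank_sup_add_finrank_inf_eq (LinearMap.range (ρ φ - 1)) (k ∙ e)
    have h4 : LinearMap.range (ρ φ - 1) ⊓ k ∙ e = ⊥ := by
      refine (Submodule.eq_bot_iff _).2 fun v ⟨hv, hv'⟩ => ?_
      obtain ⟨a, rfl⟩ := Submodule.mem_span_singleton.1 hv'
      by_contra h0
      have ha : a ≠ 0 := fun h => h0 (by rw [h, zero_smul])
      exact he (by simpa [smul_smul, inv_mul_cancel₀ ha] using Submodule.smul_mem _ a⁻¹ hv)
    rw [h4, finrank_bot, add_zero] at h3
    have h5 := Submodule.finrank_le (LinearMap.range (ρ φ - 1) ⊔ k ∙ e)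
    omega
  obtain ⟨_, ⟨m, rfl⟩, _, hv', hsplit⟩ := Submodule.mem_sup.1 (hsum ▸ Submodule.mem_top : c φ ∈ _)
  obtain ⟨a, rfl⟩ := Submodule.mem_span_singleton.1 hv'
  rw [LinearMap.sub_apply, Module.End.one_apply] at hsplit
  let c' : AG → M := fun g => c g - (ρ g m - m)
  have hc'm : ∀ g h, c' (g * h) = ρ g (c' h) + c' g := fun g h => by
    simp only [c', hcm, map_mul, Module.End.mul_apply, map_sub]; abel
  have hφD := (Gal.isFrobeniusAt_iff.1 hφ).1
  have hc'φ : c' φ = a • e := by simp only [c', ← hsplit]; abel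
  -- values on inertia lie in the line
  have hIline : ∀ s ∈ A.inertiaSubgroupIn ℚ, c' s ∈ k ∙ e := fun s hs => by
    have e1 := cocycle_frob_conj ρ hp hq hpq hA hU hρU hc hI hφ hs
    have hconj : c (φ * s * φ⁻¹) = ρ φ (c s) := by
      have h1 := hcm (φ * s * φ⁻¹) φ
      rw [inv_mul_cancel_right, hcm, map_mul, map_mul, hI s hs, mul_one, ← map_mul,
        mul_inv_cancel, map_one, Module.End.one_apply, add_comm (c φ)] at h1
      exact (add_right_cancel h1).symm
    have hq1' : (q : k) = 1 := by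
      rw [← sub_eq_zero, ← Nat.cast_one, ← Nat.cast_sub hq.one_lt.le]
      exact (CharP.cast_eq_zero_iff k p _).2 hq1
    rw [hconj, ← Nat.cast_smul_eq_nsmul k, hq1', one_smul] at e1
    simp only [c', hI s hs, Module.End.one_apply, sub_self, sub_zero]
    exact hker _ e1
  have hline : ∀ σ : A.decompositionSubgroup ℚ, c' σ ∈ k ∙ e ∧ ρ (σ : AG) e = e := by
    intro σ
    obtain ⟨i, ι, hι, hs⟩ := exists_frob_pow_mul hq hA hφ (lvQ.inf_mem hU hV) σ.2
    have hfixpow : ∀ i : ℕ, ρ (φ ^ i) e = e ∧ c' (φ ^ i) ∈ k ∙ e := by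
      intro i
      induction i with
      | zero => exact ⟨by rw [pow_zero, map_one]; rfl, by
          rw [pow_zero, show c' 1 = 0 by simp [c', Z1_apply_one hc]]; exact zero_mem _⟩
      | succ i ih =>
        refine ⟨by rw [pow_succ', map_mul, Module.End.mul_apply, ih.1, hfix], ?_⟩
        obtain ⟨b, hb⟩ := Submodule.mem_span_singleton.1 ih.2
        rw [pow_succ', hc'm, ← hb, map_smul, hfix, hc'φ]
        exact add_mem (Submodule.smul_mem _ _ (Submodule.mem_span_singleton_self e))
          (Submodule.smul_mem _ _ (Submodule.mem_span_singleton_self e))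
    have hρσ : ρ (σ : AG) = ρ (φ ^ i) := by
      rw [show (σ : AG) = φ ^ i * ι * ((φ ^ i * ι)⁻¹ * σ) by group, map_mul, hρU _ hs.1, map_mul,
        hI ι hι, mul_one, mul_one]
    refine ⟨?_, by rw [hρσ, (hfixpow i).1]⟩
    have h1 : c (σ : AG) = c (φ ^ i * ι) := by
      have := hVc (φ ^ i * ι) _ hs.2
      rwa [mul_inv_cancel_left] at this
    obtain ⟨b, hb⟩ := Submodule.mem_span_singleton.1 (hIline ι hι)
    have h2 : c' (σ : AG) = c' (φ ^ i * ι) := by
      simp only [c', h1, hρσ]
      rw [map_mul, hI ι hι, mul_one]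
    rw [h2, hc'm, ← hb, map_smul, (hfixpow i).1]
    exact add_mem (Submodule.smul_mem _ _ (Submodule.mem_span_singleton_self e)) (hfixpow i).2
  choose h hh using fun σ => Submodule.mem_span_singleton.1 (hline σ).1
  have hcancel : ∀ {x y : k}, x • e = y • e → x = y := fun hxy => smul_left_injective k he0 hxy
  refine ⟨h, ⟨(U ⊓ V).subgroupOf _, comap_mem_comap _ (lvQ.inf_mem hU hV), fun g s hs =>
      hcancel ?_⟩,
    fun x y => hcancel ?_, m, fun σ => by rw [hh]; simp [c']⟩
  · rw [hh, hh]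
    have hs' : (s : AG) ∈ U ⊓ V := hs
    simp only [c', Subgroup.coe_mul, hVc _ _ hs'.2, map_mul, hρU _ hs'.1, mul_one]
  · rw [hh, add_smul, hh, hh, Subgroup.coe_mul, hc'm, ← hh y, map_smul, (hline x).2, add_comm]

end Generic

section Adjoint

variable {k : Type} [Field k] {p : ℕ} [Fact p.Prime] [CharP k p] (rb : AG →* M2 k)

/-- The trace zero part of the image of an element. -/
def hZero (φ : AG) : sl2 k :=
  ⟨(2 : k) • rb φ - trace (rb φ) • 1, mem_sl2.2 (by simp [trace_fin_two]; ring)⟩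

variable {rb}

theorem coe_hZero (φ : AG) : (hZero rb φ : M2 k) = (2 : k) • rb φ - trace (rb φ) • 1 := rfl

theorem trace_hZero_sq (φ : AG) :
    trace ((hZero rb φ : M2 k) * (hZero rb φ : M2 k)) =
      2 * (trace (rb φ) ^ 2 - 4 * det (rb φ)) := by
  simp [coe_hZero, trace_fin_two, det_fin_two, Matrix.mul_apply, Fin.sum_univ_two]
  ring

theorem adRep_hZero {σ φ : AG} (h : rb σ * rb φ = rb φ * rb σ) :
    adRep rb σ (hZero rb φ) = hZero rb φ := by
  refine Subtype.ext ?_
  rw [coe_adRep, coe_hZero, mul_sub, Matrix.mul_smul, h, Matrix.mul_smul, mul_one, sub_mul,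
    Matrix.smul_mul, Matrix.smul_mul, mul_assoc, mul_inv_rb, mul_one]

/-- The matrices fixed by a regular element form the line of its trace zero part. -/
theorem mem_span_hZero {φ : AG} (hreg : trace (rb φ) ^ 2 ≠ 4 * det (rb φ))
    {X : sl2 k} (hX : adRep rb φ X = X) : X ∈ k ∙ hZero rb φ := by
  have hcomm : rb φ * (X : M2 k) = (X : M2 k) * rb φ := by
    have := congrArg (fun Y : sl2 k => (Y : M2 k) * rb φ) hX
    simp only [coe_adRep] at this
    rwa [mul_assoc, inv_mul_rb, mul_one] at this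
  have e00 := congrFun (congrFun hcomm 0) 0
  have e01 := congrFun (congrFun hcomm 0) 1
  have e10 := congrFun (congrFun hcomm 1) 0
  simp only [Matrix.mul_apply, Fin.sum_univ_two] at e00 e01 e10
  have h0 : (X : M2 k) 1 1 = -(X : M2 k) 0 0 := eq_neg_of_add_eq_zero_right (mem_sl2.1 X.2)
  rw [trace_fin_two, det_fin_two] at hreg
  set a := rb φ 0 0
  set b := rb φ 0 1
  set c := rb φ 1 0
  set d := rb φ 1 1
  set x := (X : M2 k) 0 0
  set y := (X : M2 k) 0 1
  set z := (X : M2 k) 1 0
  rw [h0] at e01 e10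
  have hD : (a - d) ^ 2 + 4 * (b * c) ≠ 0 := fun h => hreg (by linear_combination h)
  refine Submodule.mem_span_singleton.2
    ⟨((a - d) * x + 2 * (b * z)) / ((a - d) ^ 2 + 4 * (b * c)), Subtype.ext (Matrix.ext
      (Fin.forall_fin_two.2 ⟨Fin.forall_fin_two.2 ⟨?_, ?_⟩, Fin.forall_fin_two.2 ⟨?_, ?_⟩⟩))⟩
  all_goals
    simp only [Submodule.coe_smul, coe_hZero, Matrix.smul_apply, Matrix.sub_apply, trace_fin_two,
      smul_eq_mul, Matrix.one_apply_eq, Matrix.one_apply_ne (show (0 : Fin 2) ≠ 1 by decide),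
      Matrix.one_apply_ne (show (1 : Fin 2) ≠ 0 by decide), h0]
    rw [div_mul_eq_mul_div, div_eq_iff hD]
  · linear_combination (-2 * b) * e10
  · linear_combination (-(a - d)) * e01 + (4 * b) * e00
  · linear_combination (a - d) * e10
  · linear_combination (2 * b) * e10

theorem hZero_notMem_range {φ : AG} (hreg : trace (rb φ) ^ 2 ≠ 4 * det (rb φ))
    (h2 : (2 : k) ≠ 0) : hZero rb φ ∉ LinearMap.range (adRep rb φ - 1) := by
  rintro ⟨Y, hY⟩
  have e := congrArg (fun Z : sl2 k => trace ((Z : M2 k) * (hZero rb φ : M2 k))) hY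
  simp only [LinearMap.sub_apply, Module.End.one_apply, AddSubgroupClass.coe_sub, sub_mul,
    trace_sub, coe_adRep] at e
  have h1 : rb φ⁻¹ * (hZero rb φ : M2 k) = (hZero rb φ : M2 k) * rb φ⁻¹ := by
    have hc : rb φ⁻¹ * rb φ = rb φ * rb φ⁻¹ := by rw [inv_mul_rb, mul_inv_rb]
    rw [coe_hZero, mul_sub, sub_mul, Matrix.mul_smul, Matrix.mul_smul, Matrix.smul_mul,
      Matrix.smul_mul, one_mul, mul_one, hc]
  rw [mul_assoc, mul_assoc, h1, trace_mul_comm, mul_assoc, mul_assoc, inv_mul_rb, mul_one,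
    sub_self, trace_hZero_sq] at e
  exact (mul_ne_zero h2 (sub_ne_zero.2 hreg)) e.symm

end Adjoint

end Fermat.Agent.TW
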