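import Fermat.Agent.PT.LocalGlobal
import Fermat.Agent.PT.Places
import Fermat.Agent.TW.Ad

/-!
# The decomposition group at `q` and the local Galois group

The local Galois group surjects onto the decomposition group of the standard place modulo every
level, so locally constant data on the decomposition group can be moved to the local group.
Used to apply local duality to classes on a decomposition group.
-/

noncomputable section

namespace Fermat.Agent.TW

open Fermat.Agent.PT

open scoped Pointwise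

variable {q : ℕ} [Fact q.Prime]

local notation "Qb" => AlgebraicClosure ℚ

/-- The decomposition group at the standard place above `q`. -/
abbrev decQ (q : ℕ) [Fact q.Prime] : Subgroup AG := (padicPlace q).decompositionSubgroup ℚ

/-- The inertia group at the standard place above `q`. -/
abbrev inQ (q : ℕ) [Fact q.Prime] : Subgroup AG := (padicPlace q).inertiaSubgroupIn ℚ

/-- The map from the local group to the decomposition group. -/
def toDec (q : ℕ) [Fact q.Prime] : GamQ q →* decQ q :=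
  (localGaloisToGlobal q).codRestrict _ (localGaloisToGlobal_mem_decompositionSubgroup q)

theorem coe_toDec (τ : GamQ q) : (toDec q τ : AG) = localGaloisToGlobal q τ := rfl

/-- An element of the decomposition group preserves the absolute value. -/
theorem nq_eq_of_mem_decQ {σ : AG} (hσ : σ ∈ decQ q) (x : Qb) : nq q σ x = nq q 1 x := by
  rcases eq_or_ne x 0 with rfl | hx
  · rw [nq_zero, nq_zero]
  have hmem : ∀ y : Qb, nq q σ y ≤ 1 ↔ nq q 1 y ≤ 1 := fun y => by
    have h : σ y ∈ padicPlace q ↔ y ∈ padicPlace q := by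
      conv_lhs => rw [← (MulAction.mem_stabilizer_iff.1 hσ)]
      rw [Gal.mem_smul_iff, show σ⁻¹ (σ y) = y from σ.symm_apply_apply y]
    rw [mem_padicPlace_iff, mem_padicPlace_iff] at h
    simpa [nq, ← NNReal.coe_le_coe] using h
  set a := nq q σ x
  set b := nq q 1 x
  have ha : 0 < a := nq_pos σ hx
  have hb : 0 < b := nq_pos 1 hx
  have hq1 : (1 : ℝ) < q := by exact_mod_cast (Fact.out : q.Prime).one_lt
  have hscale : ∀ (n : ℕ) (m : ℤ) (γ : AG),
      nq q γ (x ^ n * (((q : ℚ) ^ m : ℚ) : Qb)) = nq q γ x ^ n * ((q : ℝ) ^ m)⁻¹ := fun n m γ => by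
    rw [nq_mul, nq_pow, nq_ratCast, Rat.cast_zpow, norm_zpow, Rat.cast_natCast, Padic.norm_p,
      inv_zpow]
  have key : ∀ (n : ℕ) (m : ℤ), a ^ n ≤ (q : ℝ) ^ m ↔ b ^ n ≤ (q : ℝ) ^ m := fun n m => by
    have h := hmem (x ^ n * (((q : ℚ) ^ m : ℚ) : Qb))
    have hpos : 0 < (q : ℝ) ^ m := zpow_pos (zero_lt_one.trans hq1) m
    rwa [hscale, hscale, mul_inv_le_iff₀ hpos, one_mul, mul_inv_le_iff₀ hpos, one_mul] at h
  -- two positive reals with the same rational bounds on all powers agree
  have hlt : ∀ u w : ℝ, 0 < u → 0 < w → (∀ (n : ℕ) (m : ℤ),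
      w ^ n ≤ (q : ℝ) ^ m → u ^ n ≤ (q : ℝ) ^ m) → u ≤ w := by
    intro u w hu hw h
    by_contra! hwu
    obtain ⟨n, hn⟩ := pow_unbounded_of_one_lt (q : ℝ) ((one_lt_div hw).2 hwu)
    obtain ⟨m, hm1, hm2⟩ := exists_mem_Ioc_zpow (K := ℝ) (pow_pos hw n) hq1
    have h1 := h n (m + 1) hm2
    rw [div_pow, lt_div_iff₀ (pow_pos hw n)] at hn
    have h2 : (q : ℝ) ^ (m + 1) < (q : ℝ) * w ^ n := by
      rw [zpow_add_one₀ (zero_lt_one.trans hq1).ne', mul_comm]
      exact mul_lt_mul_of_pos_left hm1 (zero_lt_one.trans hq1)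
    linarith
  exact le_antisymm (hlt a b ha hb fun n m h => (key n m).2 h)
    (hlt b a hb ha fun n m h => (key n m).1 h)

/-- The local group surjects onto the decomposition group modulo every level. -/
theorem exists_local_lift {N : Subgroup AG} (hN : N ∈ lvQ) {σ : AG} (hσ : σ ∈ decQ q) :
    ∃ τ : GamQ q, (localGaloisToGlobal q τ)⁻¹ * σ ∈ N := by
  obtain ⟨τ, h, hh, he⟩ := samePlace_of_nq_eq (q := q) hN (g := 1) (g' := σ)
    (fun x _ => nq_eq_of_mem_decQ hσ x)
  refine ⟨τ, ?_⟩
  rwa [he, mul_one, inv_mul_cancel_left]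

/-- A locally constant function on the decomposition group is determined by the local group. -/
theorem ext_of_toDec {X : Type*} {f f' : decQ q → X} (hf : Lv.Con1 (lvD (decQ q)) f)
    (hf' : Lv.Con1 (lvD (decQ q)) f') (h : ∀ τ, f (toDec q τ) = f' (toDec q τ)) : f = f' := by
  obtain ⟨U, ⟨N, hN, hNU⟩, hU⟩ := hf.map₂ hf' Prod.mk
  funext σ
  obtain ⟨τ, hτ⟩ := exists_local_lift hN σ.2
  have e := hU (toDec q τ) ((toDec q τ)⁻¹ * σ)
      (hNU (by simpa [Subgroup.mem_subgroupOf, coe_toDec] using hτ))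
  rw [mul_inv_cancel_left, Prod.mk.injEq] at e
  rw [e.1, e.2, h]

theorem compat_toDec : Lv.Compat (lvD (decQ q)) (LQ q) (toDec q) := by
  rintro U ⟨N, hN, hNU⟩
  refine (LQ q).mem_of_le (compat_local q N hN) fun τ hτ => hNU ?_
  exact hτ

/-- A continuous homomorphism of the local group comes from the decomposition group. -/
theorem exists_hom_lift {X : Type*} [AddCommGroup X] {f : GamQ q → X} (hf : Lv.Con1 (LQ q) f)
    (hmul : ∀ a b, f (a * b) = f a + f b) :
    ∃ F : decQ q → X, Lv.Con1 (lvD (decQ q)) F ∧ (∀ a b, F (a * b) = F a + F b) ∧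
      ∀ τ, F (toDec q τ) = f τ := by
  classical
  obtain ⟨W, hW, hfW⟩ := hf
  rw [LQ_eq_comap] at hW
  obtain ⟨N₀, hN₀, hN₀W⟩ := hW
  obtain ⟨N, hN, hNN₀, hn⟩ := lvQ.exists_normal hN₀
  choose l hl using fun σ : decQ q => exists_local_lift hN σ.2
  have key : ∀ (σ : decQ q) (τ : GamQ q), (localGaloisToGlobal q τ)⁻¹ * (σ : AG) ∈ N →
      f (l σ) = f τ := fun σ τ hτ => by
    have hmem : τ⁻¹ * l σ ∈ W := hN₀W (hNN₀ (by
      rw [map_mul, map_inv]
      simpa [mul_assoc] using mul_mem hτ (inv_mem (hl σ))))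
    simpa using hfW τ (τ⁻¹ * l σ) hmem
  refine ⟨fun σ => f (l σ), ⟨N.comap (decQ q).subtype, Lv.comap_mem_comap _ hN, fun σ s hs => ?_⟩,
    fun a b => ?_, fun τ => key _ τ (by simp [coe_toDec, N.one_mem])⟩
  · refine key (σ * s) (l σ) ?_
    simpa [mul_assoc] using mul_mem (hl σ) hs
  · rw [← hmul]
    refine key (a * b) (l a * l b) ?_
    have h2 := hn.conj_mem _ (hl a) ((localGaloisToGlobal q (l b))⁻¹)
    simpa [mul_assoc] using mul_mem h2 (hl b)

end Fermat.Agent.TW
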