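import Fermat.Agent.PT.CycloSym
import Fermat.Agent.PT.KummerCount
import Fermat.Agent.TW.Local.Generate
import Fermat.Agent.TW.Local.Lift

/-!
# Local homomorphisms to `ZMod p` at a prime congruent to one

The unramified homomorphism normalised at Frobenius, and triviality of the local cyclotomic
character. Used for the local pairing at auxiliary primes.
-/

noncomputable section

namespace Fermat.Agent.TW

open Fermat.Agent.PT Fermat.Agent.PT.Lv

variable {p q : ℕ} [Fact p.Prime] [Fact q.Prime]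

local notation "Qb" => AlgebraicClosure ℚ

theorem frob_zet (hqp : q ≠ p) {φ : AG} (hφ : (padicPlace q).IsFrobeniusAt φ q) (n j : ℕ) :
    (φ ^ j) • zet p n = zet p n ^ q ^ j := by
  have hq : q.Prime := Fact.out
  have h1 : φ • zet p n = zet p n ^ q := Units.ext (by
    rw [Units.val_pow_eq_pow_val]
    refine Gal.isFrobeniusAt_rootOfUnity hq padicPlace_liesOverPrime hφ (m := p ^ n)
      (fun h => hqp ((Nat.prime_dvd_prime_iff_eq hq Fact.out).1 (hq.dvd_of_dvd_pow h))) ?_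
    rw [← Units.val_pow_eq_pow_val, zet_pow_pow, Units.val_one])
  induction j with
  | zero => simp
  | succ j ih => rw [pow_succ', mul_smul, ih, smul_pow', h1, ← pow_mul, pow_succ', mul_comm]

/-- A continuous homomorphism killing inertia and normalised at Frobenius. -/
theorem exists_unram_hom (hqp : q ≠ p) {φ : AG} (hφ : (padicPlace q).IsFrobeniusAt φ q) :
    ∃ u : decQ q → ZMod p, Con1 (lvD (decQ q)) u ∧ (∀ a b, u (a * b) = u a + u b) ∧
      (∀ σ : decQ q, (σ : AG) ∈ inQ q → u σ = 0) ∧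
      u ⟨φ, (Gal.isFrobeniusAt_iff.1 hφ).1⟩ = 1 := by
  classical
  have hq : q.Prime := Fact.out
  have hp : p.Prime := Fact.out
  obtain ⟨m, hq1, hq2⟩ := exists_inert_exponent (p := p) hqp
  have hexp := pow_mem_Hm_of_inert (p := p) hqp hq1
  obtain ⟨F, hFc, hFm, hFj⟩ := exists_hom_lift (chat_con hexp) (chat_mul hexp)
  -- the value of `F` at an element is read off on the next layer
  have hval : ∀ σ : decQ q, (σ : AG) ^ (p - 1) ∈ Hm p (m + 1) → F σ = 0 := by
    intro σ hσ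
    obtain ⟨U, ⟨N, hN, hNU⟩, hU⟩ := hFc
    obtain ⟨τ, hτ⟩ := exists_local_lift (lvQ.inf_mem hN (Hm_mem (p := p) (m + 1))) σ.2
    have e1 : F σ = F (toDec q τ) := by
      have := hU (toDec q τ) ((toDec q τ)⁻¹ * σ)
        (hNU (by simpa [Subgroup.mem_subgroupOf, coe_toDec] using hτ.1))
      rwa [mul_inv_cancel_left] at this
    rw [e1, hFj]
    refine (kum_cyU_eq_zero_iff _).2 ?_
    show cyK p (m + 1 + 1) _ = 1
    have h2 : cyK p (m + 1 + 1) ((localGaloisToGlobal q τ)⁻¹ * (σ : AG)) = 1 := hτ.2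
    rw [map_mul, map_inv, inv_mul_eq_one] at h2
    rw [map_pow, h2, ← map_pow]
    exact hσ
  have hφD := (Gal.isFrobeniusAt_iff.1 hφ).1
  have hne : F ⟨φ, hφD⟩ ≠ 0 := by
    intro h0
    obtain ⟨U, ⟨N, hN, hNU⟩, hU⟩ := hFc
    obtain ⟨τ, hτ⟩ := exists_local_lift (lvQ.inf_mem hN (Hm_mem (p := p) (m + 1))) hφD
    have e1 : F ⟨φ, hφD⟩ = F (toDec q τ) := by
      have := hU (toDec q τ) ((toDec q τ)⁻¹ * ⟨φ, hφD⟩)
        (hNU (by simpa [Subgroup.mem_subgroupOf, coe_toDec] using hτ.1))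
      rwa [mul_inv_cancel_left] at this
    rw [e1, hFj] at h0
    have h1 : cyK p (m + 1 + 1) (localGaloisToGlobal q τ ^ (p - 1)) = 1 :=
      (kum_cyU_eq_zero_iff _).1 h0
    have h2 : cyK p (m + 1 + 1) ((localGaloisToGlobal q τ)⁻¹ * φ) = 1 := hτ.2
    rw [map_mul, map_inv, inv_mul_eq_one] at h2
    rw [map_pow, h2, ← map_pow] at h1
    have h3 : φ ^ (p - 1) • zet p (m + 1 + 1) = zet p (m + 1 + 1) := mem_Hm.1 h1
    rw [frob_zet hqp hφ] at h3
    have h4 : q ^ (p - 1) ≡ 1 [MOD p ^ (m + 1 + 1)] := by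
      have h5 := zet_primitive (p := p) (m + 1 + 1)
      rw [h5.eq_orderOf, ← pow_eq_pow_iff_modEq, pow_one]
      exact h3
    exact hq2 (by
      have := (ZMod.natCast_eq_natCast_iff _ _ _).2 h4
      simpa using this)
  refine ⟨fun σ => (F ⟨φ, hφD⟩)⁻¹ * F σ, hFc.comp fun v => _ * v,
    fun a b => by simp only [hFm, mul_add], fun σ hσ => ?_, inv_mul_cancel₀ hne⟩
  beta_reduce
  rw [hval σ (mem_Hm.2 (Units.ext ?_)), mul_zero]
  refine Gal.inertia_rootOfUnity hq padicPlace_liesOverPrime (pow_mem hσ (p - 1))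
    (m := p ^ (m + 1 + 1))
        (fun h => hqp ((Nat.prime_dvd_prime_iff_eq hq hp).1 (hq.dvd_of_dvd_pow h)))
    ?_
  rw [← Units.val_pow_eq_pow_val, zet_pow_pow, Units.val_one]

/-- At a prime congruent to one the local cyclotomic character is trivial. -/
theorem muFix_top (hqp : q ≠ p) (hq1 : p ∣ q - 1) :
    (cycLoc q p).MuFix (⊤ : Subgroup (GamQ q)) := by
  intro τ _
  show (cyc p).ω (localGaloisToGlobal q τ) = 1
  refine (Hm_muFix (p := p) 0) _ ?_
  have hq : q.Prime := Fact.out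
  obtain ⟨φ, hφ⟩ := Gal.exists_isFrobeniusAt hq (padicPlace_liesOverPrime (q := q))
  obtain ⟨i, ι, hι, hs⟩ := exists_frob_pow_mul hq padicPlace_liesOverPrime hφ (Hm_mem (p := p) 0)
    (localGaloisToGlobal_mem_decompositionSubgroup q τ)
  rw [show localGaloisToGlobal q τ = φ ^ i * ι * ((φ ^ i * ι)⁻¹ * localGaloisToGlobal q τ) by group]
  refine mul_mem (mul_mem (pow_mem (mem_Hm.2 ?_) i) (mem_Hm.2 (Units.ext ?_))) hs
  · rw [← pow_one φ, frob_zet hqp hφ, pow_one]
    refine (pow_eq_pow_iff_modEq (n := q) (m := 1)).2 ?_ |>.trans (pow_one _)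
    rw [← (zet_primitive (p := p) (0 + 1)).eq_orderOf, zero_add, pow_one]
    exact ((Nat.modEq_iff_dvd' hq.one_lt.le).2 hq1).symm
  · refine Gal.inertia_rootOfUnity hq padicPlace_liesOverPrime hι (m := p)
      (fun h => hqp ((Nat.prime_dvd_prime_iff_eq hq Fact.out).1 h)) ?_
    have h := congrArg Units.val (zet_pow_pow (p := p) (0 + 1))
    rwa [Units.val_pow_eq_pow_val, pow_one] at h

end Fermat.Agent.TW
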