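import Mathlib.LinearAlgebra.FiniteDimensional.Lemmas
import Mathlib.RepresentationTheory.Invariants
import Fermat.Agent.TW.Local.Generate

/-!
# Unramified local classes

The classes of a decomposition group trivial on inertia span at most `h⁰` dimensions. Used as the
local condition away from `p` in the Selmer bound.
-/

noncomputable section

namespace Fermat.Agent.TW

open scoped Pointwise

open Fermat.Agent.PT Fermat.Agent.PT.Lv Module

section Abstract

variable {k : Type*} [Field k] {G : Type*} [Group G] (L : Lv G) {M : Type*} [AddCommGroup M]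
  [Module k M] (ρ : Representation k G M)

/-- Cocycles which agree with a coboundary on a subgroup. -/
def trivOn (I : Subgroup G) : Submodule k (G → M) where
  carrier := {c | c ∈ Z1 L ρ ∧ ∃ m, ∀ g ∈ I, c g = ρ g m - m}
  zero_mem' := ⟨zero_mem _, 0, fun g _ => by simp⟩
  add_mem' := fun {a b} ⟨ha, m, hm⟩ ⟨hb, m', hm'⟩ => ⟨add_mem ha hb, m + m', fun g hg => by
    simp [hm g hg, hm' g hg, map_add]; abel⟩
  smul_mem' := fun r c ⟨hc, m, hm⟩ => ⟨Submodule.smul_mem _ r hc, r • m, fun g hg => by
    simp [hm g hg, smul_sub]⟩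

variable {L ρ}

/-- If the group is generated by a normal subgroup and one element modulo every level, the
classes trivial on the normal subgroup span at most `h⁰` dimensions. -/
theorem finrank_classes_trivOn_le [FiniteDimensional k M] (hρ : Smooth L ρ) {I : Subgroup G}
    [I.Normal] (φ : G)
    (hgen : ∀ U ∈ L, ∀ σ : G, ∃ (i : ℕ) (ι : G), ι ∈ I ∧ (φ ^ i * ι)⁻¹ * σ ∈ U) :
    FiniteDimensional k ((trivOn L ρ I).map (B1 ρ).mkQ) ∧
      finrank k ((trivOn L ρ I).map (B1 ρ).mkQ) ≤ finrank k ρ.invariants := by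
  classical
  let W : Submodule k (G → M) :=
    { carrier := {c | c ∈ Z1 L ρ ∧ ∀ g ∈ I, c g = 0}
      zero_mem' := ⟨zero_mem _, fun _ _ => rfl⟩
      add_mem' := fun {a b} ha hb => ⟨add_mem ha.1 hb.1, fun g hg => by
        simp [ha.2 g hg, hb.2 g hg]⟩
      smul_mem' := fun r c hc => ⟨Submodule.smul_mem _ r hc.1, fun g hg => by simp [hc.2 g hg]⟩ }
  let MI : Submodule k M :=
    { carrier := {m | ∀ g ∈ I, ρ g m = m}
      zero_mem' := fun g _ => map_zero _
      add_mem' := fun {a b} ha hb g hg => by rw [map_add, ha g hg, hb g hg]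
      smul_mem' := fun r m hm g hg => by rw [map_smul, hm g hg] }
  -- cocycles killed on `I` take invariant values
  have hval : ∀ c ∈ W, ∀ g, c g ∈ MI := fun c ⟨hc, h0⟩ g i hi => by
    have hm := (mem_Z1.1 hc).2
    have h1 := hm i g
    have h2 := hm g (g⁻¹ * i * g)
    have hj : g⁻¹ * i * g ∈ I := by simpa using ‹I.Normal›.conj_mem i hi g⁻¹
    rw [show g * (g⁻¹ * i * g) = i * g by group, h0 _ hj, map_zero, zero_add, h1, h0 i hi,
      add_zero] at h2
    exact h2
  let ev : W →ₗ[k] MI :=
    { toFun := fun c => ⟨(c : G → M) φ, hval c c.2 φ⟩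
      map_add' := fun _ _ => rfl
      map_smul' := fun _ _ => rfl }
  have hevinj : Function.Injective ev := by
    refine (injective_iff_map_eq_zero ev).2 fun ⟨c, hc, h0⟩ hφ => ?_
    have hφ' : c φ = 0 := congrArg Subtype.val hφ
    have hm := (mem_Z1.1 hc).2
    have hpow : ∀ i : ℕ, c (φ ^ i) = 0 := by
      intro i
      induction i with
      | zero => rw [pow_zero]; exact Z1_apply_one hc
      | succ i ih => rw [pow_succ', hm, ih, hφ', map_zero, add_zero]
    obtain ⟨U, hU, hUc⟩ := (mem_Z1.1 hc).1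
    refine Subtype.ext (funext fun σ => ?_)
    obtain ⟨i, ι, hι, hs⟩ := hgen U hU σ
    have := hUc (φ ^ i * ι) _ hs
    rw [mul_inv_cancel_left, hm, h0 ι hι, hpow, map_zero, zero_add] at this
    exact this
  have : FiniteDimensional k W := FiniteDimensional.of_injective ev hevinj
  let π : W →ₗ[k] (G → M) ⧸ B1 ρ := (B1 ρ).mkQ ∘ₗ W.subtype
  have himg : (trivOn L ρ I).map (B1 ρ).mkQ ≤ LinearMap.range π := by
    rintro _ ⟨c, ⟨hc, m, hm⟩, rfl⟩
    refine ⟨⟨c - d0 ρ m, sub_mem hc (d0_mem_Z1_of_smooth ρ hρ m), fun g hg => ?_⟩,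
      (Submodule.Quotient.eq _).2 ⟨-m, ?_⟩⟩
    · rw [Pi.sub_apply, d0_apply, hm g hg, sub_self]
    · rw [map_neg]; exact (sub_sub_cancel_left c (d0 ρ m)).symm
  have hfin : FiniteDimensional k ((trivOn L ρ I).map (B1 ρ).mkQ) :=
    Submodule.finiteDimensional_of_le himg
  refine ⟨hfin, (Submodule.finrank_mono himg).trans ?_⟩
  -- the kernel contains the coboundaries of invariant vectors
  let δ : MI →ₗ[k] W :=
    { toFun := fun m => ⟨d0 ρ (m : M), d0_mem_Z1_of_smooth ρ hρ _, fun g hg => by
        rw [d0_apply, m.2 g hg, sub_self]⟩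
      map_add' := fun a b => Subtype.ext (map_add _ _ _)
      map_smul' := fun r a => Subtype.ext (map_smul _ _ _) }
  have hδ : LinearMap.range δ ≤ LinearMap.ker π := by
    rintro _ ⟨m, rfl⟩
    exact (Submodule.Quotient.mk_eq_zero _).2 ⟨m, rfl⟩
  have hker : finrank k (LinearMap.ker δ) ≤ finrank k ρ.invariants := by
    refine LinearMap.finrank_le_finrank_of_injective
      (f := (MI.subtype.domRestrict (LinearMap.ker δ)).codRestrict _ fun m g => ?_) ?_
    · have := congrFun (congrArg Subtype.val (LinearMap.mem_ker.1 m.2)) g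
      exact sub_eq_zero.1 this
    · intro a b h
      exact Subtype.ext (Subtype.ext (congrArg (fun x : ρ.invariants => (x : M)) h))
  have h1 := LinearMap.finrank_range_add_finrank_ker π
  have h2 := LinearMap.finrank_range_add_finrank_ker δ
  have h3 := LinearMap.finrank_le_finrank_of_injective hevinj
  have h4 := Submodule.finrank_mono hδ
  omega

end Abstract

section Galois

variable {k : Type*} [Field k] {M : Type*} [AddCommGroup M] [Module k M] [FiniteDimensional k M]
  (ρ : Representation k AG M) {q : ℕ} {A : ValuationSubring (AlgebraicClosure ℚ)}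

/-- Unramified classes of a decomposition group span at most `h⁰` dimensions. -/
theorem finrank_unramified_le (hρ : Smooth lvQ ρ) (hq : q.Prime) (hA : A.LiesOverPrime q) :
    FiniteDimensional k ((trivOn (lvD (A.decompositionSubgroup ℚ))
        (resRep ρ (A.decompositionSubgroup ℚ))
        ((A.inertiaSubgroupIn ℚ).subgroupOf (A.decompositionSubgroup ℚ))).map
        (B1 (resRep ρ (A.decompositionSubgroup ℚ))).mkQ) ∧
      finrank k ((trivOn (lvD (A.decompositionSubgroup ℚ))
        (resRep ρ (A.decompositionSubgroup ℚ))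
        ((A.inertiaSubgroupIn ℚ).subgroupOf (A.decompositionSubgroup ℚ))).map
        (B1 (resRep ρ (A.decompositionSubgroup ℚ))).mkQ) ≤
      finrank k (Representation.invariants (resRep ρ (A.decompositionSubgroup ℚ))) := by
  obtain ⟨φ, hφ⟩ := Gal.exists_isFrobeniusAt hq hA
  have hφD := (Gal.isFrobeniusAt_iff.1 hφ).1
  have hn : ((A.inertiaSubgroupIn ℚ).subgroupOf (A.decompositionSubgroup ℚ)).Normal := by
    refine ⟨fun i hi g => ?_⟩
    rw [Subgroup.mem_subgroupOf] at hi ⊢
    have h := Gal.conj_mem_inertia hi (g : AG)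
    rw [MulAction.mem_stabilizer_iff.1 g.2] at h
    simpa using h
  refine finrank_classes_trivOn_le (fun m => ?_) ⟨φ, hφD⟩ ?_
  · obtain ⟨U, hU, hm⟩ := hρ m
    exact ⟨_, comap_mem_comap _ hU, fun s hs => hm _ hs⟩
  · rintro U ⟨N, hN, hNU⟩ σ
    obtain ⟨i, ι, hι, h⟩ := exists_frob_pow_mul hq hA hφ hN σ.2
    exact ⟨i, ⟨ι, (Gal.mem_inertia_iff.1 hι).1⟩, hι,
        hNU (by simpa [Subgroup.mem_subgroupOf] using h)⟩

end Galois

end Fermat.Agent.TW
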