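import Fermat.Agent.PT.LocalLine
import Fermat.Agent.TW.Local.Lift

/-!
# Cup products along a pairing into `μ_p`

The cup product of two cocycles of a local group and its descent to classes. Used for the local
pairings of the Greenberg–Wiles inequality.
-/

noncomputable section

namespace Fermat.Agent.TW

open Fermat.Agent.PT Fermat.Agent.PT.Lv

section Generic

variable {p : ℕ} {k : Type*} [Field k] {G : Type*} [Group G] {L : Lv G}
  {M M' : Type*} [AddCommGroup M] [Module k M] [AddCommGroup M'] [Module k M']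
  {ρ : Representation k G M} {ρ' : Representation k G M'}
  {χ : Representation (ZMod p) G (ZMod p)} (β : M →+ M' →+ ZMod p)

/-- The cochain `β (x g) (g • y h)`. -/
def cupFn (ρ' : Representation k G M') (x : G → M) (y : G → M') (gh : G × G) : ZMod p :=
  β (x gh.1) (ρ' gh.1 (y gh.2))

omit [Module k M] in
theorem cupFn_add_left (x x' : G → M) (y : G → M') :
    cupFn β ρ' (x + x') y = cupFn β ρ' x y + cupFn β ρ' x' y := by
  funext gh; simp [cupFn]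

omit [Module k M] in
theorem cupFn_add_right (x : G → M) (y y' : G → M') :
    cupFn β ρ' x (y + y') = cupFn β ρ' x y + cupFn β ρ' x y' := by
  funext gh; simp [cupFn]

variable (hβ : ∀ g m m', β (ρ g m) (ρ' g m') = χ g (β m m'))
  (hρ' : ∃ U ∈ L, ∀ s ∈ U, ρ' s = 1)
include hβ hρ'

theorem cupFn_mem_Z2 {x : G → M} (hx : x ∈ Z1 L ρ) {y : G → M'} (hy : y ∈ Z1 L ρ') :
    cupFn β ρ' x y ∈ Z2 L χ := by
  obtain ⟨hxc, hxm⟩ := mem_Z1.1 hx
  obtain ⟨hyc, hym⟩ := mem_Z1.1 hy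
  obtain ⟨U, hU, hUρ⟩ := hρ'
  obtain ⟨V, hV, hVx⟩ := hxc
  obtain ⟨W, hW, hWy⟩ := hyc
  refine mem_Z2.2 ⟨⟨U ⊓ (V ⊓ W), L.inf_mem hU (L.inf_mem hV hW), fun g h s hs t ht => ?_⟩,
    fun g h j => ?_⟩
  · simp only [cupFn, hVx g s hs.2.1, hWy h t ht.2.2, map_mul, hUρ s hs.1, mul_one]
  · simp only [cupFn, hxm, hym, map_add, map_mul, Module.End.mul_apply, AddMonoidHom.add_apply,
      ← hβ]
    abel

/-- The class of the cup product. -/
def cupH2 {x : G → M} (hx : x ∈ Z1 L ρ) {y : G → M'} (hy : y ∈ Z1 L ρ') : H2 L χ :=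
  mk2 L χ ⟨cupFn β ρ' x y, cupFn_mem_Z2 β hβ hρ' hx hy⟩

theorem cupH2_d0_left (m : M) {x : G → M} (hx : x ∈ Z1 L ρ) (hxm : x = d0 ρ m) {y : G → M'}
    (hy : y ∈ Z1 L ρ') : cupH2 β hβ hρ' hx hy = 0 := by
  obtain ⟨hyc, hym⟩ := mem_Z1.1 hy
  refine mk2_eq_zero.2 ⟨fun g => β m (y g), hyc.comp fun v => β m v, ?_⟩
  funext ⟨g, h⟩
  simp only [d1_apply, ← hβ, hym, map_add, hxm, cupFn, d0_apply, map_sub, AddMonoidHom.sub_apply]
  abel

theorem cupH2_d0_right (m : M') {x : G → M} (hx : x ∈ Z1 L ρ) {y : G → M'} (hy : y ∈ Z1 L ρ')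
    (hym : y = d0 ρ' m) : cupH2 β hβ hρ' hx hy = 0 := by
  obtain ⟨hxc, hxm⟩ := mem_Z1.1 hx
  obtain ⟨U, hU, hUρ⟩ := hρ'
  refine mk2_eq_zero.2 ⟨fun g => -β (x g) (ρ' g m), ?_, ?_⟩
  · obtain ⟨V, hV, hVx⟩ := hxc
    exact ⟨U ⊓ V, L.inf_mem hU hV, fun g s hs => by
      simp only [hVx g s hs.2, map_mul, hUρ s hs.1, mul_one]⟩
  funext ⟨g, h⟩
  simp only [d1_apply, map_neg, ← hβ, hxm, map_add, map_sub, map_mul, Module.End.mul_apply,
    AddMonoidHom.add_apply, hym, cupFn, d0_apply]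
  abel

theorem cupH2_add_left {x x' : G → M} (hx : x ∈ Z1 L ρ) (hx' : x' ∈ Z1 L ρ) {y : G → M'}
    (hy : y ∈ Z1 L ρ') :
    cupH2 β hβ hρ' (add_mem hx hx') hy = cupH2 β hβ hρ' hx hy + cupH2 β hβ hρ' hx' hy := by
  rw [cupH2, cupH2, cupH2, ← map_add]
  exact congrArg _ (Subtype.ext (cupFn_add_left β x x' y))

theorem cupH2_add_right {x : G → M} (hx : x ∈ Z1 L ρ) {y y' : G → M'} (hy : y ∈ Z1 L ρ')
    (hy' : y' ∈ Z1 L ρ') :
    cupH2 β hβ hρ' hx (add_mem hy hy') = cupH2 β hβ hρ' hx hy + cupH2 β hβ hρ' hx hy' := by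
  rw [cupH2, cupH2, cupH2, ← map_add]
  exact congrArg _ (Subtype.ext (cupFn_add_right β x y y'))

theorem cupH2_congr {x x' : G → M} (hx : x ∈ Z1 L ρ) (hx' : x' ∈ Z1 L ρ) {y y' : G → M'}
    (hy : y ∈ Z1 L ρ') (hy' : y' ∈ Z1 L ρ') (e : x = x') (e' : y = y') :
    cupH2 β hβ hρ' hx hy = cupH2 β hβ hρ' hx' hy' := by
  subst e e'; rfl

theorem cupH2_congr_cls {x x' : G → M} (hx : x ∈ Z1 L ρ) (hx' : x' ∈ Z1 L ρ) {y y' : G → M'}
    (hy : y ∈ Z1 L ρ') (hy' : y' ∈ Z1 L ρ') {m : M} {m' : M'} (e : x = x' + d0 ρ m)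
    (e' : y = y' + d0 ρ' m') :
    cupH2 β hβ hρ' hx hy = cupH2 β hβ hρ' hx' hy' := by
  have hm : d0 ρ m ∈ Z1 L ρ := by simpa [e] using sub_mem hx hx'
  have hm' : d0 ρ' m' ∈ Z1 L ρ' := by simpa [e'] using sub_mem hy hy'
  rw [cupH2_congr β hβ hρ' hx (add_mem hx' hm) hy (add_mem hy' hm') e e',
    cupH2_add_left β hβ hρ' hx' hm (add_mem hy' hm'), cupH2_add_right β hβ hρ' hx' hy' hm',
    cupH2_add_right β hβ hρ' hm hy' hm', cupH2_d0_left β hβ hρ' m hm rfl hy',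
    cupH2_d0_left β hβ hρ' m hm rfl hm', cupH2_d0_right β hβ hρ' m' hx' hm' rfl, add_zero, add_zero,
    add_zero]

end Generic

section Galois

variable {p : ℕ} [Fact p.Prime] {k : Type*} [Field k] {M M' : Type*} [AddCommGroup M] [Module k M]
  [AddCommGroup M'] [Module k M'] {ρ : Representation k AG M} {ρ' : Representation k AG M'}
  (β : M →+ M' →+ ZMod p) (hβ : ∀ g m m', β (ρ g m) (ρ' g m') = muG p g (β m m'))
  {q : ℕ} [Fact q.Prime]

/-- A cochain on the decomposition group pulled back to the local group. -/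
abbrev pullQ {X : Type*} (x : decQ q → X) : GamQ q → X := x ∘ toDec q

omit [Fact p.Prime] in
theorem pullQ_mem_Z1 {x : decQ q → M} (hx : x ∈ Z1 (lvD (decQ q)) (resRep ρ (decQ q))) :
    pullQ x ∈ Z1 (LQ q) ((ρ.comp (localGaloisToGlobal q))) := by
  obtain ⟨hc, hm⟩ := mem_Z1.1 hx
  refine mem_Z1.2 ⟨hc.precomp compat_toDec, fun g h => ?_⟩
  simp only [pullQ, Function.comp_apply, map_mul, hm]
  rfl

omit [Fact p.Prime] in
theorem resDec_mem_Z1 {x : AG → M} (hx : x ∈ Z1 lvQ ρ) (D : Subgroup AG) :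
    (fun s : D => x s) ∈ Z1 (lvD D) (resRep ρ D) := by
  obtain ⟨hc, hm⟩ := mem_Z1.1 hx
  exact mem_Z1.2 ⟨hc.precomp (compat_comap lvQ D.subtype), fun g h => hm g h⟩

end Galois

end Fermat.Agent.TW
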